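import Fermat.Agent.Ribet.H384.RamTwo
import Fermat.Agent.Ribet.H158.WallQGood
import Fermat.Agent.S37.Core.Inst

/-!
# WALL-q, leaf ODD-VACUOUS (helper384)

`oddVacuous : H158.WallQ.OddVacuousStatement` VERBATIM: the Frey torsion does not embed
Galois-equivariantly in `J₀(N)` for ODD `N`.  Indeed `J₀(N)[p]` is unramified at `2` when
`2 ∤ N p` (`S37.Core.rawES`), while `E[p]` is ramified at `2` (`freyRamifiedAtTwo`).
-/

set_option autoImplicit false
set_option linter.style.haveILetI false

namespace Fermat.Agent.Ribet.H384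

open Fermat.Agent.Ribet Fermat.Agent.Ribet.Spec

/-- **ODD-VACUOUS.** -/
theorem oddVacuous : Fermat.Agent.Ribet.H158.WallQ.OddVacuousStatement := by
  intro P N _ hN S a hemb
  obtain ⟨ι, hinj, hgal, -⟩ := hemb
  have hdvd : ¬ 2 ∣ N * P.p := by
    intro h
    rcases (Nat.Prime.dvd_mul Nat.prime_two).mp h with h' | h'
    · exact hN h'
    · have := (Nat.prime_dvd_prime_iff_eq Nat.prime_two P.pp).mp h'
      have := P.hp5
      omega
  have key : ∀ A : ValuationSubring (AlgebraicClosure ℚ), A.LiesOverPrime 2 →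
      ∀ σ ∈ A.inertiaSubgroupIn ℚ, ∀ x : FreyTorsion P, σ • x = x := by
    intro A hA σ hσ x
    have hraw := (Fermat.Agent.S37.Core.rawES N P.p 2 Nat.prime_two hdvd A hA).1
    have hx : ((P.p : ℕ) : ℤ) • ι x = 0 := by
      rw [natCast_zsmul, ← map_nsmul, freyTorsion_nsmul, map_zero]
    exact hinj ((hgal σ x).trans (hraw σ hσ (ι x) hx))
  exact freyRamifiedAtTwo P (fun A hA σ hσ x => key A hA σ hσ x)

end Fermat.Agent.Ribet.H384
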