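import Fermat.Agent.Ribet.H384.RamTwoMain
import Fermat.Agent.Ribet.H584.Places
import Fermat.Agent.Ribet.H704.Final
import Fermat.Agent.Ribet.H643.TorsionRank

/-!
# The mod-`p` representation of the Frey curve is RAMIFIED at `2` (helper384)

`freyRamifiedAtTwo : ∀ P : FreyPackage, ¬ P.GaloisRepUnramifiedAt 2`, UNCONDITIONAL
(`RamTwoMain.freyRamifiedAtTwo_of` with `H584.places`, `H704.detFrob`, `H643.torsionRank`).
-/

set_option autoImplicit false

namespace Fermat.Agent.Ribet.H384

/-- **The Frey representation is ramified at `2`.** -/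
theorem freyRamifiedAtTwo (P : FreyPackage) : ¬ P.GaloisRepUnramifiedAt 2 :=
  freyRamifiedAtTwo_of P Fermat.Agent.Ribet.H584.places Fermat.Agent.Ribet.H704.detFrob
    Fermat.Agent.Ribet.H643.torsionRank

end Fermat.Agent.Ribet.H384
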