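import Fermat.Agent.S13.H365.NodeKer

/-!
# Ramification at `2`, abstract core (helper384)

* `NodeModel.one_le_of_val_zpow` : a point of odd prime order `n` of a node model whose
  `x`-coordinate has valuation in `g ^ ℤ`, where `v a = g ^ t` and `n ∤ 2 t`, lies in `E⁰`.
* `dblX_char2`, `dblY_char2` : the duplication formula on `y² + x y = x³ + a x²` in
  characteristic `2`: `2 (x, y) = (x², y² + a x²)`.
-/

set_option autoImplicit false
set_option linter.unusedSectionVars false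
set_option linter.unusedVariables false

namespace Fermat.Agent.Ribet.H384

open WeierstrassCurve WeierstrassCurve.Affine
open Fermat.Agent.S13.H365

section comp

variable {K : Type*} [Field K] [DecidableEq K] {Γ₀ : Type*} [LinearOrderedCommGroupWithZero Γ₀]
  {v : Valuation K Γ₀} {W : Affine K}

/-- **Step A.** If `v a = g ^ t`, `n` is an odd prime not dividing `2 t`, and the `x`-coordinate
(relative to the node) of an `n`-torsion point has valuation in `g ^ ℤ`, then the point has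
nonsingular reduction. -/
theorem one_le_of_val_zpow (M : NodeModel v W) {n : ℕ} (hn : n.Prime) (hodd : Odd n)
    {g : Γ₀} (hg0 : g ≠ 0) (hg1 : g < 1) {t : ℤ} (ha : v M.a = g ^ t)
    (hnt : ¬ (n : ℤ) ∣ 2 * t) {x y : K} (h : W.Nonsingular x y)
    (hP : n • Point.some x y h = 0) {m : ℤ} (hm : v (x - M.e) = g ^ m) :
    1 ≤ v (x - M.e) := by
  by_contra hlt
  rw [not_le] at hlt
  obtain ⟨hlo, j, hj⟩ := M.torsion_near_node hodd h hP hlt
  have hinj := (zpow_right_strictAnti₀ (zero_lt_iff.mpr hg0) hg1).injective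
  -- `m * n = t * (2 * j)`
  have e1 : g ^ (m * (n : ℤ)) = g ^ (t * ((2 * j : ℕ) : ℤ)) := by
    rw [zpow_mul, zpow_mul, zpow_natCast, zpow_natCast, ← hm, ← ha, hj]
  have e2 : m * (n : ℤ) = t * ((2 * j : ℕ) : ℤ) := hinj e1
  push_cast at e2
  have hnp : Prime (n : ℤ) := Nat.prime_iff_prime_int.mp hn
  have hdvd : (n : ℤ) ∣ 2 * t * (j : ℤ) := ⟨m, by linarith⟩
  rcases hnp.dvd_or_dvd hdvd with h1 | h1
  · exact hnt h1
  obtain ⟨j', hj'⟩ := h1
  have hn0 : (n : ℤ) ≠ 0 := by exact_mod_cast hn.ne_zero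
  have e3 : m = 2 * t * j' := by
    have : m * (n : ℤ) = (2 * t * j') * (n : ℤ) := by rw [e2, hj']; ring
    exact mul_right_cancel₀ hn0 this
  have hj'nn : 0 ≤ j' := by
    by_contra hneg
    rw [not_le] at hneg
    have hjn : (0 : ℤ) ≤ (j : ℤ) := Int.natCast_nonneg j
    have hnpos : (0 : ℤ) < (n : ℤ) := by exact_mod_cast hn.pos
    have : (n : ℤ) * j' < 0 := mul_neg_of_pos_of_neg hnpos hneg
    linarith
  obtain ⟨i, rfl⟩ := Int.eq_ofNat_of_zero_le hj'nn
  -- `v (x - e) = (v a ^ 2) ^ i`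
  have e4 : v (x - M.e) = (v M.a ^ 2) ^ i := by
    rw [hm, e3, ha, ← zpow_natCast (g ^ t) 2, ← zpow_mul, ← zpow_natCast _ i, ← zpow_mul]
    congr 1
    push_cast
    ring
  have h0 : v M.a ≠ 0 := (Valuation.ne_zero_iff v).mpr M.ha0
  have hpos : 0 < v M.a := zero_lt_iff.mpr h0
  rcases Nat.eq_zero_or_pos i with hi | hi
  · rw [hi, pow_zero] at e4
    exact hlt.ne e4
  · have hsq1 : v M.a ^ 2 < 1 := pow_lt_one₀ zero_le M.ha (by norm_num)
    have h1 : (v M.a ^ 2) ^ i ≤ v M.a ^ 2 := pow_le_of_le_one zero_le hsq1.le hi.ne'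
    have h2 : v M.a ^ 2 < v M.a := by
      calc v M.a ^ 2 = v M.a * v M.a := pow_two _
        _ < v M.a * 1 := mul_lt_mul_of_pos_left M.ha hpos
        _ = v M.a := mul_one _
    rw [← e4] at h1
    exact absurd (h1.trans_lt h2) (not_lt.mpr hlo.le)

end comp

section dbl

variable {κ : Type*} [Field κ]

/-- Duplication on `y² + x y = x³ + a x²` in characteristic `2`, `x`-coordinate. -/
lemma dblX_char2 {X Y a L : κ} (h2 : (2 : κ) = 0) (hX : X ≠ 0)
    (hL : L * (2 * Y + X) = 3 * X ^ 2 + 2 * a * X - Y)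
    (hE : Y ^ 2 + X * Y = X ^ 3 + a * X ^ 2) :
    L ^ 2 + L - a - X - X = X ^ 2 := by
  have key : X ^ 2 * (L ^ 2 + L - a - X - X - X ^ 2) = 0 := by
    linear_combination (L * (2 * Y + X) + (3 * X ^ 2 + 2 * a * X - Y) - 4 * Y * L + X) * hL
      + hE + (-(X * Y) - X ^ 2 * Y + 2 * (X ^ 2 - Y) * (X ^ 2 + a * X)
        + 2 * (X ^ 2 + a * X) ^ 2 + X * (X ^ 2 + a * X)
        - 2 * Y * L * (3 * X ^ 2 + 2 * a * X - Y) + 2 * Y ^ 2 * L ^ 2 - X * Y * L) * h2
  rcases mul_eq_zero.mp key with h | h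
  · exact absurd (pow_eq_zero_iff (two_ne_zero' ℕ) |>.mp h) hX
  · linear_combination h

end dbl

end Fermat.Agent.Ribet.H384
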