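import Fermat.Agent.Ribet.H384.RamTwoRed
import Fermat.Agent.S13.H365.FreyTwo
import Fermat.Agent.S13.H187.RatVal
import Fermat.Agent.S56.H66.VG0
import Fermat.Agent.Ribet.Spec

/-!
# The mod-`p` representation of the Frey curve is RAMIFIED at `2` (helper384)

`freyRamifiedAtTwo_of : Places → DetFrob → TorsionRank → ∀ P : FreyPackage,
¬ P.GaloisRepUnramifiedAt 2`  (the three inputs are on main; plugged in in `RamTwo.lean`).

Proof.  Let `A ∣ 2` with a Frobenius `φ` and suppose inertia at `A` fixes `E[p]`.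
* The coordinates of the `p`-torsion points lie in the inertia field, whose value group is
  `v(2)^ℤ` (`S56.H66.vg0`); as `v(a₄)² = v(2)^(2pi - 8)` and `p ∤ 2pi - 8`, the component
  `v(x)` mod `v(a₄)²` of a `p`-torsion point is trivial: `E[p] ⊆ E⁰` (`one_le_of_val_zpow`).
* The reduction at `2` is `y² + xy = x³ + ā₂x²`, on which `(x², y²) = ± 2 (x, y)`
  (`dblX_char2`, `dblY_char2`); reduction is injective on `E⁰[p]`, so `φ = ± 2` on `E[p]`
  (`frob_eq_of_unit`).
* Hence `det φ = 4`; but `det φ = 2` (DETF), so `p ∣ 2`: contradiction.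

Use: a level `N` at which the Frey representation is modular (`FreyEmbedsIn P N S a`) is EVEN
(`WallQGood.lean`).
-/

set_option autoImplicit false
set_option linter.unusedSectionVars false
set_option linter.unusedVariables false
set_option linter.style.haveILetI false

namespace Fermat.Agent.Ribet.H384

open WeierstrassCurve WeierstrassCurve.Affine WeierstrassCurve.Affine.Point
open Fermat.Agent.S05.SameRed
open Fermat.Agent.S05.Assemble (Qb val_int_le_one val_int_lt_one val_int_eq_one
  fA fB frey_a₁ frey_a₂ frey_a₃ frey_a₄ frey_a₆ val_p_eq_one KerTorsionFree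
  val_x_le_one_of_torsion)
open Fermat.Agent.S13.H365
open Fermat.Agent.Ribet.Spec

variable (P : FreyPackage)

/-- `v(a₄) = v(2)^t` with `p ∤ 2t`. -/
lemma frey_val_a₄_zpow {A : ValuationSubring Qb} (hA : A.LiesOverPrime 2) :
    ∃ t : ℤ, A.valuation (P.freyCurve⁄Qb).a₄ = A.valuation (2 : Qb) ^ t ∧
      ¬ (P.p : ℤ) ∣ 2 * t := by
  obtain ⟨i, hi⟩ := Fermat.Agent.S13.H187.val_int_eq_pow (K := Qb) hA P.hb0
  have h20 : A.valuation (2 : Qb) ≠ 0 := (Valuation.ne_zero_iff _).mpr two_ne_zero
  refine ⟨(P.p : ℤ) * i - 4, ?_, ?_⟩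
  · have hfA : A.valuation (fA P) = 1 := by
      have h := val_int_eq_one hA Nat.prime_two (n := P.a ^ P.p) (by
        intro h
        exact frey_a_odd P (Int.prime_two.dvd_of_dvd_pow (by exact_mod_cast h)))
      exact h
    have hfB : A.valuation (fB P) = A.valuation (2 : Qb) ^ ((P.p : ℤ) * i) := by
      have : fB P = ((P.b : ℤ) : Qb) ^ P.p := by simp only [fB]; push_cast; rfl
      rw [this, map_pow, hi, ← pow_mul, ← zpow_natCast, mul_comm]
      push_cast
      rfl
    have h16 : A.valuation (16 : Qb) = A.valuation (2 : Qb) ^ (4 : ℤ) := by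
      have : (16 : Qb) = 2 ^ 4 := by norm_num
      rw [this, map_pow, ← zpow_natCast]
      rfl
    rw [frey_a₄, map_div₀, map_mul, Valuation.map_neg, hfA, one_mul, hfB, h16,
      ← zpow_sub₀ h20]
  · intro h
    have h8 : (P.p : ℤ) ∣ 8 := by
      have e : (8 : ℤ) = (P.p : ℤ) * (2 * i) - 2 * ((P.p : ℤ) * i - 4) := by ring
      rw [e]
      exact dvd_sub (dvd_mul_right _ _) h
    have h8' : P.p ∣ 8 := by exact_mod_cast h8
    have h2 : P.p ∣ 2 := P.pp.dvd_of_dvd_pow (show P.p ∣ 2 ^ 3 by norm_num; exact h8')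
    have := Nat.le_of_dvd (by norm_num) h2
    have := P.hp5
    omega

/-- A Frobenius element at `A ∣ 2` is congruent to `z ↦ z²` on `A`. -/
lemma frob_two_cong {A : ValuationSubring Qb} {φ : Qb ≃ₐ[ℚ] Qb} (hφ : A.IsFrobeniusAt φ 2)
    (z : Qb) (hz : A.valuation z ≤ 1) : A.valuation (φ z - z ^ 2) < 1 := by
  have hzA : z ∈ A := (A.valuation_le_one_iff z).mp hz
  obtain ⟨hσ, hF⟩ := hφ
  have h1 := hF (IsLocalRing.residue A ⟨z, hzA⟩)
  rw [← IsLocalRing.ResidueField.residue_smul, ← map_pow, ← sub_eq_zero, ← map_sub,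
    IsLocalRing.residue_eq_zero_iff, ← ValuationSubring.coe_mem_nonunits_iff] at h1
  exact (A.mem_nonunits_iff).mp h1

/-- **The Frey representation is ramified at `2`.** -/
theorem freyRamifiedAtTwo_of (hPl : PlacesStatement) (hDet : DetFrobStatement)
    (hDim : TorsionRankStatement) : ¬ P.GaloisRepUnramifiedAt 2 := by
  intro hunr
  haveI : Fact P.p.Prime := ⟨P.pp⟩
  obtain ⟨A, hA, φ, hφ⟩ := hPl 2 Nat.prime_two
  have hW : IntegralCoeffs (P.freyCurve⁄Qb) A.valuation := frey_integral_all P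
  have hp2 : (2 : ℕ) ≠ P.p := by have := P.hp5; omega
  have hp : A.valuation (P.p : Qb) = 1 := val_p_eq_one (P := P) hA Nat.prime_two hp2
  have hC1 : KerTorsionFree (P.freyCurve⁄Qb) A.valuation P.p := fun Q hQ hQ0 =>
    Fermat.Agent.S05.C1b.eq_zero_of_inKer_of_nsmul_eq_zero hW P.p hp Q hQ hQ0
  obtain ⟨s, hs⟩ := IsAlgClosed.exists_pow_nat_eq (fB P - fA P) (n := 2) (by norm_num)
  obtain ⟨t, ht, hpt⟩ := frey_val_a₄_zpow P hA
  have hv2 : A.valuation (2 : Qb) < 1 := by
    have := (A.mem_nonunits_iff).mp hA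
    simpa using this
  have h20 : A.valuation (2 : Qb) ≠ 0 := (Valuation.ne_zero_iff _).mpr two_ne_zero
  -- Step A: every affine `p`-torsion point has a unit `x`-coordinate
  have hunit : ∀ (x y : Qb) (h : (P.freyCurve⁄Qb).Nonsingular x y),
      P.p • Point.some x y h = 0 → A.valuation x = 1 := by
    intro x y h hD
    have hxle : A.valuation x ≤ 1 := val_x_le_one_of_torsion hC1 h hD
    refine le_antisymm hxle ?_
    have hmem : Point.some x y h ∈ Submodule.torsionBy ℤ (P.freyCurve⁄Qb).Point P.p := by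
      rw [Submodule.mem_torsionBy_iff, natCast_zsmul]
      exact hD
    have hfix : ∀ σ ∈ A.inertiaSubgroupIn ℚ, σ x = x := by
      intro σ hσ
      have h1 := hunr A hA σ hσ ⟨Point.some x y h, hmem⟩
      have h2 : Point.map (W' := P.freyCurve) σ.toAlgHom (Point.some x y h) =
          Point.some x y h := congrArg Subtype.val h1
      rw [Point.map_some] at h2
      simp only [Point.some.injEq] at h2
      exact h2.1
    have hMe : (freyNode P hA s hs).e = 0 := rfl
    have hMa : (freyNode P hA s hs).a = (P.freyCurve⁄Qb).a₄ := rfl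
    by_cases hx0 : x = 0
    · exfalso
      have h0 : A.valuation (x - (freyNode P hA s hs).e) < 1 := by
        rw [hMe, sub_zero, hx0, _root_.map_zero]
        exact zero_lt_one
      have := ((freyNode P hA s hs).torsion_near_node P.hp_odd h hD h0).1
      rw [hMe, sub_zero, hx0, _root_.map_zero] at this
      exact not_lt_zero this
    obtain ⟨m, hm⟩ := Fermat.Agent.S56.H66.vg0 2 Nat.prime_two A hA x hx0 hfix
    have hm' : A.valuation (x - (freyNode P hA s hs).e) = A.valuation (2 : Qb) ^ m := by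
      rw [hMe, sub_zero, hm]
      norm_num
    have := one_le_of_val_zpow (freyNode P hA s hs) P.pp P.hp_odd h20 hv2 (t := t)
      (by rw [hMa]; exact ht) hpt h hD hm'
    rwa [hMe, sub_zero] at this
  -- the action of Frobenius on points
  have hτ : ∀ (x y : Qb) (h : (P.freyCurve⁄Qb).Nonsingular x y),
      ∃ h' : (P.freyCurve⁄Qb).Nonsingular ((φ : Qb →+* Qb) x) ((φ : Qb →+* Qb) y),
        Point.map (W' := P.freyCurve) φ.toAlgHom (Point.some x y h) =
          Point.some ((φ : Qb →+* Qb) x) ((φ : Qb →+* Qb) y) h' := by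
    intro x y h
    exact ⟨_, Point.map_some (W' := P.freyCurve) φ.toAlgHom h⟩
  have hfrob : ∀ z, A.valuation z ≤ 1 → A.valuation ((φ : Qb →+* Qb) z - z ^ 2) < 1 :=
    fun z hz => frob_two_cong hφ z hz
  have h4 : A.valuation (P.freyCurve⁄Qb).a₄ < 1 := frey_val_a₄_lt_one P hA
  -- Step C/D: Frobenius is `c = ± 2`
  have hc : ∃ c : ℤ, c ^ 2 = 4 ∧ ∀ pt : (P.freyCurve⁄Qb).Point, P.p • pt = 0 →
      Point.map (W' := P.freyCurve) φ.toAlgHom pt = c • pt := by
    obtain ⟨k, hk⟩ := frey_a₂_int P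
    rcases Int.even_or_odd k with hev | hodd
    · refine ⟨2, by norm_num, fun pt hD => ?_⟩
      have ha2 : A.valuation (P.freyCurve⁄Qb).a₂ < 1 := by
        rw [hk]
        exact val_int_lt_one hA (by exact_mod_cast hev.two_dvd)
      rcases pt with _ | ⟨x, y, h⟩
      · change Point.map (W' := P.freyCurve) φ.toAlgHom 0 = (2 : ℤ) • (0 : (P.freyCurve⁄Qb).Point)
        rw [_root_.map_zero]
        exact (zsmul_zero _).symm
      · have := (frob_eq_of_unit hW hv2 (frey_a₁ P) (frey_a₃ P) (frey_a₆ P) h4 hfrob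
          (Point.map (W' := P.freyCurve) φ.toAlgHom) hτ hC1 h hD (hunit x y h hD)).1 ha2
        rw [this]
        exact (ofNat_zsmul _ 2).symm
    · refine ⟨-2, by norm_num, fun pt hD => ?_⟩
      have ha2 : A.valuation ((P.freyCurve⁄Qb).a₂ - 1) < 1 := by
        rw [hk]
        have : ((k : Qb) - 1) = ((k - 1 : ℤ) : Qb) := by push_cast; ring
        rw [this]
        apply val_int_lt_one hA
        obtain ⟨j, hj⟩ := hodd
        exact ⟨j, by rw [hj]; push_cast; ring⟩
      rcases pt with _ | ⟨x, y, h⟩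
      · change Point.map (W' := P.freyCurve) φ.toAlgHom 0 =
          (-2 : ℤ) • (0 : (P.freyCurve⁄Qb).Point)
        rw [_root_.map_zero]
        exact (zsmul_zero _).symm
      · have := (frob_eq_of_unit hW hv2 (frey_a₁ P) (frey_a₃ P) (frey_a₆ P) h4 hfrob
          (Point.map (W' := P.freyCurve) φ.toAlgHom) hτ hC1 h hD (hunit x y h hD)).2 ha2
        rw [this, neg_smul]
        congr 1
  obtain ⟨c, hc2, hcφ⟩ := hc
  -- Step E: the determinant
  have hsm : ∀ x : FreyTorsion P, φ • x = (c : ZMod P.p) • x := by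
    intro x
    obtain ⟨pt, hpt⟩ := x
    apply Subtype.ext
    have hD : P.p • pt = 0 := by
      have := (Submodule.mem_torsionBy_iff _ _).mp hpt
      rwa [natCast_zsmul] at this
    rw [Int.cast_smul_eq_zsmul]
    exact hcφ pt hD
  have hend : galoisRepModuleEnd (S := ℚ) (K := AlgebraicClosure ℚ) P.freyCurve P.p φ =
      (c : ZMod P.p) • (LinearMap.id : FreyTorsion P →ₗ[ZMod P.p] FreyTorsion P) := by
    apply LinearMap.ext
    intro x
    rw [galoisRepModuleEnd_apply, LinearMap.smul_apply, LinearMap.id_apply]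
    exact hsm x
  have hdet := hDet P 2 Nat.prime_two hp2 A hA φ hφ
  rw [hend, LinearMap.det_smul, LinearMap.det_id, mul_one, hDim P] at hdet
  have h42 : ((4 : ℤ) : ZMod P.p) = ((2 : ℕ) : ZMod P.p) := by
    rw [← hc2]
    push_cast
    exact hdet
  have h2z : ((2 : ℕ) : ZMod P.p) = 0 := by
    have e : ((4 : ℤ) : ZMod P.p) = ((2 : ℕ) : ZMod P.p) + ((2 : ℕ) : ZMod P.p) := by
      push_cast; norm_num
    rw [e] at h42
    exact left_eq_add.mp h42.symm |>.symm ▸ rfl
  have hdvd : P.p ∣ 2 := (ZMod.natCast_eq_zero_iff 2 P.p).mp h2z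
  have := Nat.le_of_dvd (by norm_num) hdvd
  have := P.hp5
  omega

end Fermat.Agent.Ribet.H384
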