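import Fermat.Agent.Ribet.H384.RamTwoCore
import Fermat.Agent.S05.SameRed
import Fermat.Agent.S05.AssembleCore

/-!
# Ramification at `2`: Frobenius is `± 2` on the torsion of `E⁰` (helper384)

`A` a valuation subring of `K` with `v 2 < 1`, `W : y² + x y = x³ + a₂ x² + a₄ x` with `a₂ ∈ A`,
`v a₄ < 1` (nodal reduction `y² + x y = x³ + ā₂ x²`).

* `dbl_cong` : for an integral point `(x, y)` with `v x = 1`, the coordinates of `2 (x, y)` are
  congruent to `(x², y² + a₂ x²)` modulo the maximal ideal;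
* `frob_eq_two_nsmul`, `frob_eq_neg_two_nsmul` : if `σ z ≡ z²` on `A` and `τ` is the induced
  action on points, then `τ D = 2 D` (`ā₂ = 0`), resp. `τ D = -(2 D)` (`ā₂ = 1`) for every torsion
  point `D` of order prime to the residue characteristic with `v x(D) = 1`.
-/

set_option autoImplicit false
set_option linter.unusedSectionVars false
set_option linter.unusedVariables false

namespace Fermat.Agent.Ribet.H384

open WeierstrassCurve WeierstrassCurve.Affine
open Fermat.Agent.S05.SameRed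
open Fermat.Agent.S05.Assemble (KerTorsionFree val_y_le_one)

section dblY

variable {κ : Type*} [Field κ]

/-- Duplication on `y² + x y = x³ + a x²` in characteristic `2`, `y`-coordinate. -/
lemma dblY_char2 {X Y a L : κ} (h2 : (2 : κ) = 0) (hX : X ≠ 0)
    (hL : L * (2 * Y + X) = 3 * X ^ 2 + 2 * a * X - Y)
    (hE : Y ^ 2 + X * Y = X ^ 3 + a * X ^ 2) :
    -(L * (X ^ 2 - X) + Y) - X ^ 2 = Y ^ 2 + a * X ^ 2 := by
  have key : X * (-(L * (X ^ 2 - X) + Y) - X ^ 2 - (Y ^ 2 + a * X ^ 2)) = 0 := by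
    linear_combination (-(X ^ 2 - X)) * hL + (-X) * hE
      + (-X ^ 4 + X ^ 2 * Y - a * X ^ 3 - X * Y - (X ^ 2 + a * X) * (X ^ 2 - X)
        + Y * L * (X ^ 2 - X)) * h2
  rcases mul_eq_zero.mp key with h | h
  · exact absurd h hX
  · linear_combination h

end dblY

section val

variable {K : Type*} [Field K] {A : ValuationSubring K}

lemma val_coe_lt_one_iff (z : A) :
    A.valuation (z : K) < 1 ↔ IsLocalRing.residue A z = 0 := by
  rw [IsLocalRing.residue_eq_zero_iff, A.valuation_lt_one_iff]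

lemma val_sub_lt_one_iff (z w : A) :
    A.valuation ((z : K) - (w : K)) < 1 ↔ IsLocalRing.residue A z = IsLocalRing.residue A w := by
  have : ((z : K) - (w : K)) = ((z - w : A) : K) := rfl
  rw [this, val_coe_lt_one_iff, map_sub, sub_eq_zero]

end val

section dbl

variable {K : Type*} [Field K] [DecidableEq K] {A : ValuationSubring K} {W : Affine K}

/-- **Duplication modulo the maximal ideal.** -/
theorem dbl_cong (hA2 : A.valuation (2 : K) < 1) (h1 : W.a₁ = 1) (h3 : W.a₃ = 0)
    (h6 : W.a₆ = 0) (h2 : W.a₂ ∈ A) (h4 : A.valuation W.a₄ < 1) {x y : K}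
    (hE : W.Equation x y) (hx : A.valuation x = 1) (hy : y ∈ A) :
    y ≠ W.negY x y ∧ W.slope x x y y ∈ A ∧
      W.addX x x (W.slope x x y y) ∈ A ∧ W.addY x x y (W.slope x x y y) ∈ A ∧
      A.valuation (W.addX x x (W.slope x x y y) - x ^ 2) < 1 ∧
      A.valuation (W.addY x x y (W.slope x x y y) - (y ^ 2 + W.a₂ * x ^ 2)) < 1 := by
  have hxA : x ∈ A := (A.valuation_le_one_iff x).mp hx.le
  have h4A : W.a₄ ∈ A := (A.valuation_le_one_iff _).mp h4.le
  have hvy : A.valuation y ≤ 1 := (A.valuation_le_one_iff y).mpr hy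
  -- the denominator of the slope
  have hd : y - W.negY x y = 2 * y + x := by
    simp only [negY, h1, h3]; ring
  have hv2y : A.valuation (2 * y) < 1 := by
    rw [map_mul]
    exact (mul_le_of_le_one_right' hvy).trans_lt hA2
  have hvd : A.valuation (2 * y + x) = 1 := by
    rw [add_comm, Valuation.map_add_eq_of_lt_left _ (by rw [hx]; exact hv2y), hx]
  have hd0 : 2 * y + x ≠ 0 := by
    intro h
    rw [h, map_zero] at hvd
    exact zero_ne_one hvd
  have hne : y ≠ W.negY x y := by
    intro h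
    apply hd0
    rw [← hd, sub_eq_zero]
    exact h
  have hsl : W.slope x x y y = (3 * x ^ 2 + 2 * W.a₂ * x + W.a₄ - y) / (2 * y + x) := by
    rw [slope_of_Y_ne rfl hne, hd, h1, one_mul]
  set ℓ := W.slope x x y y with hℓ
  have hnum : 3 * x ^ 2 + 2 * W.a₂ * x + W.a₄ - y ∈ A := by
    exact sub_mem (add_mem (add_mem (mul_mem (ofNat_mem A 3) (pow_mem hxA 2))
      (mul_mem (mul_mem (ofNat_mem A 2) h2) hxA)) h4A) hy
  have hℓA : ℓ ∈ A := by
    rw [← A.valuation_le_one_iff, hsl, map_div₀, hvd, div_one, A.valuation_le_one_iff]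
    exact hnum
  -- everything in `A`
  let xA : A := ⟨x, hxA⟩
  let yA : A := ⟨y, hy⟩
  let aA : A := ⟨W.a₂, h2⟩
  let bA : A := ⟨W.a₄, h4A⟩
  let lA : A := ⟨ℓ, hℓA⟩
  have idL : lA * (2 * yA + xA) = 3 * xA ^ 2 + 2 * aA * xA + bA - yA := by
    apply Subtype.ext
    show ℓ * (2 * y + x) = 3 * x ^ 2 + 2 * W.a₂ * x + W.a₄ - y
    rw [hsl, div_mul_cancel₀ _ hd0]
  have idE : yA ^ 2 + xA * yA = xA ^ 3 + aA * xA ^ 2 + bA * xA := by
    apply Subtype.ext
    show y ^ 2 + x * y = x ^ 3 + W.a₂ * x ^ 2 + W.a₄ * x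
    have := (Affine.equation_iff x y).mp hE
    rw [h1, h3, h6] at this
    linear_combination this
  -- in the residue field
  set r := IsLocalRing.residue A with hr
  have h2κ : (2 : IsLocalRing.ResidueField A) = 0 := by
    have := (val_coe_lt_one_iff (2 : A)).mp hA2
    rwa [map_ofNat] at this
  have hbκ : r bA = 0 := (val_coe_lt_one_iff bA).mp h4
  have hXκ : r xA ≠ 0 := by
    intro h
    have := (val_coe_lt_one_iff xA).mpr h
    exact this.ne hx
  have hLκ : r lA * (2 * r yA + r xA) = 3 * r xA ^ 2 + 2 * r aA * r xA - r yA := by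
    have := congrArg r idL
    simpa only [map_mul, map_add, map_sub, map_pow, map_ofNat, hbκ, add_zero] using this
  have hEκ : r yA ^ 2 + r xA * r yA = r xA ^ 3 + r aA * r xA ^ 2 := by
    have := congrArg r idE
    simpa only [map_mul, map_add, map_pow, hbκ, zero_mul, add_zero] using this
  have hX3 := dblX_char2 h2κ hXκ hLκ hEκ
  have hY3 := dblY_char2 h2κ hXκ hLκ hEκ
  -- the coordinates of the double
  let x3A : A := lA ^ 2 + lA - aA - xA - xA
  let y3A : A := -(lA * (x3A - xA) + yA) - x3A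
  have ex3 : W.addX x x ℓ = (x3A : K) := by
    show ℓ ^ 2 + W.a₁ * ℓ - W.a₂ - x - x = ℓ ^ 2 + ℓ - W.a₂ - x - x
    rw [h1, one_mul]
  have ey3 : W.addY x x y ℓ = (y3A : K) := by
    show W.negY (W.addX x x ℓ) (W.negAddY x x y ℓ) = _
    simp only [negY, negAddY, h1, h3, ex3]
    show -(ℓ * ((x3A : K) - x) + y) - 1 * (x3A : K) - 0 = -(ℓ * ((x3A : K) - x) + y) - (x3A : K)
    ring
  have rx3 : r x3A = r xA ^ 2 := by
    show r (lA ^ 2 + lA - aA - xA - xA) = _
    simp only [map_sub, map_add, map_pow]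
    exact hX3
  refine ⟨hne, hℓA, ?_, ?_, ?_, ?_⟩
  · rw [ex3]; exact x3A.2
  · rw [ey3]; exact y3A.2
  · rw [ex3]
    have : ((x3A : K) - x ^ 2) = ((x3A : K) - ((xA ^ 2 : A) : K)) := rfl
    rw [this, val_sub_lt_one_iff, map_pow]
    exact rx3
  · rw [ey3]
    have : ((y3A : K) - (y ^ 2 + W.a₂ * x ^ 2)) =
        ((y3A : K) - ((yA ^ 2 + aA * xA ^ 2 : A) : K)) := rfl
    rw [this, val_sub_lt_one_iff]
    show r (-(lA * (x3A - xA) + yA) - x3A) = _
    simp only [map_sub, map_add, map_pow, map_mul, map_neg, rx3]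
    exact hY3

end dbl

section frob

variable {K : Type*} [Field K] [DecidableEq K] {A : ValuationSubring K} {W : Affine K}

private lemma val_add_lt {a b : K} (ha : A.valuation a < 1) (hb : A.valuation b < 1) :
    A.valuation (a + b) < 1 :=
  lt_of_le_of_lt (A.valuation.map_add a b) (max_lt ha hb)

private lemma val_sub_lt {a b : K} (ha : A.valuation a < 1) (hb : A.valuation b < 1) :
    A.valuation (a - b) < 1 := by
  rw [sub_eq_add_neg]
  exact val_add_lt ha (by rwa [Valuation.map_neg])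

private lemma val_mul_lt {a b : K} (ha : A.valuation a < 1) (hb : A.valuation b ≤ 1) :
    A.valuation (a * b) < 1 := by
  rw [map_mul]
  exact (mul_le_of_le_one_right' hb).trans_lt ha

/-- **Frobenius is `2` or `-2` on torsion points with unit `x`-coordinate.**
`ε = false` : `ā₂ = 0`, `τ D = 2 D`;  `ε = true` : `ā₂ = 1`, `τ D = -(2 D)`. -/
theorem frob_eq_of_unit (hW : IntegralCoeffs W A.valuation) (hA2 : A.valuation (2 : K) < 1)
    (h1 : W.a₁ = 1) (h3 : W.a₃ = 0) (h6 : W.a₆ = 0) (h4 : A.valuation W.a₄ < 1)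
    {σ : K →+* K} (hfrob : ∀ z, A.valuation z ≤ 1 → A.valuation (σ z - z ^ 2) < 1)
    (τ : W.Point →+ W.Point)
    (hτ : ∀ (x y : K) (h : W.Nonsingular x y),
      ∃ h' : W.Nonsingular (σ x) (σ y), τ (Point.some x y h) = Point.some (σ x) (σ y) h')
    {n : ℕ} (hC1 : KerTorsionFree W A.valuation n) {x y : K} (h : W.Nonsingular x y)
    (hD : n • Point.some x y h = 0) (hx : A.valuation x = 1) :
    (A.valuation W.a₂ < 1 → τ (Point.some x y h) = 2 • Point.some x y h) ∧
    (A.valuation (W.a₂ - 1) < 1 → τ (Point.some x y h) = -(2 • Point.some x y h)) := by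
  have h2A : W.a₂ ∈ A := (A.valuation_le_one_iff _).mp hW.a₂
  have hvy : A.valuation y ≤ 1 := val_y_le_one hW h.1 hx.le
  have hyA : y ∈ A := (A.valuation_le_one_iff _).mp hvy
  obtain ⟨hne, hℓA, hx3A, hy3A, hcx, hcy⟩ := dbl_cong hA2 h1 h3 h6 h2A h4 h.1 hx hyA
  set ℓ := W.slope x x y y with hℓ
  have h2D : 2 • Point.some x y h =
      Point.some _ _ (nonsingular_add h h fun hxy => hne hxy.right) := by
    rw [two_nsmul]
    exact Point.add_self_of_Y_ne hne
  obtain ⟨h', hτD⟩ := hτ x y h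
  have hfx := hfrob x hx.le
  have hfy := hfrob y hvy
  have hvx2 : A.valuation (x ^ 2) = 1 := by rw [map_pow, hx, one_pow]
  have hvσx : A.valuation (σ x) = 1 := by
    have : σ x = x ^ 2 + (σ x - x ^ 2) := by ring
    rw [this, Valuation.map_add_eq_of_lt_left _ (by rw [hvx2]; exact hfx), hvx2]
  have hvσy : A.valuation (σ y) ≤ 1 := by
    have : σ y = y ^ 2 + (σ y - y ^ 2) := by ring
    rw [this]
    refine le_trans (A.valuation.map_add _ _) (max_le ?_ hfy.le)
    rw [map_pow]
    exact pow_le_one' hvy 2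
  have hvx3 : A.valuation (W.addX x x ℓ) ≤ 1 := (A.valuation_le_one_iff _).mpr hx3A
  have hvy3 : A.valuation (W.addY x x y ℓ) ≤ 1 := (A.valuation_le_one_iff _).mpr hy3A
  have hx2le : A.valuation (x ^ 2) ≤ 1 := hvx2.le
  have hy2le : A.valuation (y ^ 2) ≤ 1 := by rw [map_pow]; exact pow_le_one' hvy 2
  -- `σ x ≡ x₃`
  have hcx' : A.valuation (σ x - W.addX x x ℓ) < 1 := by
    have : σ x - W.addX x x ℓ = (σ x - x ^ 2) - (W.addX x x ℓ - x ^ 2) := by ring
    rw [this]
    exact val_sub_lt hfx hcx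
  have htors : ∀ Q : W.Point, n • Q = 0 → n • (τ (Point.some x y h) - Q) = 0 := by
    intro Q hQ
    rw [smul_sub, ← map_nsmul, hD, map_zero, hQ, sub_zero]
  have htors2 : n • (2 • Point.some x y h) = 0 := by
    rw [smul_comm, hD, smul_zero]
  constructor
  · intro ha2
    have hns : A.valuation (2 * σ y + W.a₁ * σ x + W.a₃) = 1 := by
      rw [h1, h3, one_mul, add_zero, add_comm,
        Valuation.map_add_eq_of_lt_left _ (by rw [hvσx]; exact val_mul_lt hA2 hvσy), hvσx]
    have hcy' : A.valuation (σ y - W.addY x x y ℓ) < 1 := by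
      have : σ y - W.addY x x y ℓ =
          (σ y - y ^ 2) - (W.addY x x y ℓ - (y ^ 2 + W.a₂ * x ^ 2)) - W.a₂ * x ^ 2 := by ring
      rw [this]
      exact val_sub_lt (val_sub_lt hfy hcy) (val_mul_lt ha2 hx2le)
    have hker := inKer_sub_of_same_reduction hW h'
      (nonsingular_add h h fun hxy => hne hxy.right) hvσx.le hvσy hvx3 hvy3 hcx' hcy'
      (Or.inr hns)
    have h0 := hC1 _ hker (by
      rw [← hτD, ← h2D]
      exact htors _ htors2)
    rw [hτD, h2D]
    exact sub_eq_zero.mp h0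
  · intro ha2
    have hns : A.valuation (2 * σ y + W.a₁ * σ x + W.a₃) = 1 := by
      rw [h1, h3, one_mul, add_zero, add_comm,
        Valuation.map_add_eq_of_lt_left _ (by rw [hvσx]; exact val_mul_lt hA2 hvσy), hvσx]
    have hneg : -(2 • Point.some x y h) =
        Point.some _ _ ((nonsingular_neg _ _).mpr
          (nonsingular_add h h fun hxy => hne hxy.right)) := by
      rw [h2D, Point.neg_some]
    have hcy' : A.valuation (σ y - W.negY (W.addX x x ℓ) (W.addY x x y ℓ)) < 1 := by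
      have : σ y - W.negY (W.addX x x ℓ) (W.addY x x y ℓ) =
          (σ y - y ^ 2) + (W.addY x x y ℓ - (y ^ 2 + W.a₂ * x ^ 2))
            + (W.addX x x ℓ - x ^ 2) + 2 * (y ^ 2 + x ^ 2) + (W.a₂ - 1) * x ^ 2 := by
        simp only [negY, h1, h3]
        ring
      rw [this]
      refine val_add_lt (val_add_lt (val_add_lt (val_add_lt hfy hcy) hcx) (val_mul_lt hA2 ?_))
        (val_mul_lt ha2 hx2le)
      exact le_trans (A.valuation.map_add _ _) (max_le hy2le hx2le)
    have hvny : A.valuation (W.negY (W.addX x x ℓ) (W.addY x x y ℓ)) ≤ 1 := by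
      simp only [negY, h1, h3, one_mul, sub_zero]
      rw [sub_eq_add_neg]
      refine le_trans (A.valuation.map_add _ _) (max_le ?_ ?_)
      · rwa [Valuation.map_neg]
      · rwa [Valuation.map_neg]
    have hker := inKer_sub_of_same_reduction hW h'
      ((nonsingular_neg _ _).mpr (nonsingular_add h h fun hxy => hne hxy.right))
      hvσx.le hvσy hvx3 hvny hcx' hcy' (Or.inr hns)
    have h0 := hC1 _ hker (by
      rw [← hτD, ← hneg]
      exact htors _ (by rw [smul_neg, htors2, neg_zero]))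
    rw [hτD, hneg]
    exact sub_eq_zero.mp h0

end frob

end Fermat.Agent.Ribet.H384
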